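/-
S37 / [R]-ABS, second seat (helper65): abstract Deuring reduction of divisors, part 1.

Generic lemmas on a function field `F/K` in the Prelude `Place`/`Divisor` language
(Mathlib + Prelude only):

* `rr_mono`, `mul_mem_rr`, `mul_mem_rr_sub_iff` : monotonicity, products and shifts of the spaces
  `riemannRochSpace`;
* `degree_mono`, `eq_of_le_of_degree_eq`, `exists_single_of_degree_one` : divisors when all places
  have degree `1`;
* `IsPS U H` : `H` is the "pole support" of the subspace `U`, i.e. the smallest divisor with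
  `U ≤ L(H)`, all minima being attained; uniqueness, existence (`exists_isPS`), superadditivity
  under products (`IsPS.add_le`) and shift under multiplication (`IsPS.smul`).

The proof of the main theorem (file `Main.lean`) follows helper43's complement trick
`V_D * V_(nE-D) ⊆ V_(nE) ⊆ L̄(n Ē)`.
-/
import Mathlib
import Fermat.Prelude.Def_AlgebraicCurve_Repartitions
import Fermat.Agent.S37.Bounded65

set_option autoImplicit false

open AlgebraicCurve Module

namespace Fermat.Agent.S37.Deuring65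

variable {K F : Type*} [Field K] [Field F] [Algebra K F]

/-! ### Riemann–Roch spaces -/

theorem rr_mono {D D' : Divisor K F} (h : D ≤ D') :
    riemannRochSpace D ≤ riemannRochSpace D' := by
  intro f hf
  rw [mem_riemannRochSpace_iff] at hf ⊢
  intro v
  rcases hf v with h0 | h0
  · exact Or.inl h0
  · refine Or.inr ?_
    have := h v
    omega

theorem mem_rr_of_ne_zero {D : Divisor K F} {f : F} (hf : f ≠ 0) :
    f ∈ riemannRochSpace D ↔ ∀ v : Place K F, -D v ≤ v.ord f := by
  rw [mem_riemannRochSpace_iff]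
  exact forall_congr' fun v => or_iff_right hf

theorem mul_mem_rr {D D' : Divisor K F} {f f' : F} (hf : f ∈ riemannRochSpace D)
    (hf' : f' ∈ riemannRochSpace D') : f * f' ∈ riemannRochSpace (D + D') := by
  rcases eq_or_ne f 0 with rfl | h0
  · simp
  rcases eq_or_ne f' 0 with rfl | h0'
  · simp
  rw [mem_rr_of_ne_zero h0] at hf
  rw [mem_rr_of_ne_zero h0'] at hf'
  rw [mem_rr_of_ne_zero (mul_ne_zero h0 h0')]
  intro v
  rw [v.ord_mul h0 h0', Finsupp.add_apply]
  have := hf v
  have := hf' v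
  omega

/-- Multiplication by `y` with divisor `Dy` identifies `L(B)` with `L(B - Dy)`. -/
theorem mul_mem_rr_sub_iff {y : F} (hy : y ≠ 0) {Dy : Divisor K F}
    (hDy : ∀ v : Place K F, Dy v = v.ord y) (B : Divisor K F) (f : F) :
    y * f ∈ riemannRochSpace (B - Dy) ↔ f ∈ riemannRochSpace B := by
  rcases eq_or_ne f 0 with rfl | h0
  · simp
  rw [mem_rr_of_ne_zero h0, mem_rr_of_ne_zero (mul_ne_zero hy h0)]
  refine forall_congr' fun v => ?_
  rw [v.ord_mul hy h0, Finsupp.sub_apply, hDy v]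
  constructor <;> intro h <;> omega

/-! ### Divisors when all places have degree one -/

section DegOne

variable (hdeg : ∀ v : Place K F, v.deg = 1)
include hdeg

theorem degree_nonneg_of_nonneg {D : Divisor K F} (hD : 0 ≤ D) : 0 ≤ Divisor.degree D := by
  rw [Bounded65.degree_eq_sum_of_deg_one hdeg]
  exact Finset.sum_nonneg fun v _ => hD v

theorem degree_mono {D D' : Divisor K F} (h : D ≤ D') :
    Divisor.degree D ≤ Divisor.degree D' := by
  have := degree_nonneg_of_nonneg hdeg (sub_nonneg.mpr h)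
  rw [map_sub] at this
  linarith

theorem eq_zero_of_nonneg_of_degree_eq_zero {D : Divisor K F} (hD : 0 ≤ D)
    (h : Divisor.degree D = 0) : D = 0 := by
  rw [Bounded65.degree_eq_sum_of_deg_one hdeg, Finsupp.sum] at h
  have h2 := (Finset.sum_eq_zero_iff_of_nonneg (fun v _ => hD v)).mp h
  ext v
  by_cases hv : v ∈ D.support
  · exact h2 v hv
  · simpa using hv

theorem eq_of_le_of_degree_eq {D D' : Divisor K F} (h : D ≤ D')
    (hd : Divisor.degree D = Divisor.degree D') : D = D' := by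
  have := eq_zero_of_nonneg_of_degree_eq_zero hdeg (sub_nonneg.mpr h)
    (by rw [map_sub, hd, sub_self])
  exact (sub_eq_zero.mp this).symm

theorem exists_single_of_degree_one {D : Divisor K F} (hD : 0 ≤ D)
    (h : Divisor.degree D = 1) : ∃ Q : Place K F, D = Finsupp.single Q 1 := by
  classical
  have hne : D ≠ 0 := by
    rintro rfl
    simp at h
  obtain ⟨Q, hQ⟩ := Finsupp.ne_iff.mp hne
  have hQ1 : 1 ≤ D Q := by
    have h0 := hD Q
    simp only [Finsupp.coe_zero, Pi.zero_apply] at hQ h0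
    omega
  refine ⟨Q, ?_⟩
  have hle : Finsupp.single Q 1 ≤ D := by
    intro v
    by_cases hv : v = Q
    · subst hv
      simpa using hQ1
    · rw [Finsupp.single_apply, if_neg (Ne.symm hv)]
      exact hD v
  refine (eq_of_le_of_degree_eq hdeg hle ?_).symm
  rw [Divisor.degree_single, hdeg Q, h]
  simp

end DegOne

/-! ### Pole supports of subspaces -/

/-- `H` is the smallest divisor with `U ≤ L(H)`, every minimum being attained. -/
def IsPS (U : Submodule K F) (H : Divisor K F) : Prop :=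
  U ≤ riemannRochSpace H ∧ ∀ v : Place K F, ∃ u ∈ U, u ≠ 0 ∧ v.ord u = -H v

namespace IsPS

variable {U U' W : Submodule K F} {H H' H'' : Divisor K F}

theorem le_of_le (h : IsPS U H) (hU : U ≤ riemannRochSpace H') : H ≤ H' := by
  intro v
  obtain ⟨u, hu, hu0, hord⟩ := h.2 v
  have := (mem_rr_of_ne_zero hu0).mp (hU hu) v
  omega

theorem unique (h : IsPS U H) (h' : IsPS U H') : H = H' :=
  le_antisymm (h.le_of_le h'.1) (h'.le_of_le h.1)

theorem mono (h : IsPS U H) (h' : IsPS U' H') (hUU' : U ≤ U') : H ≤ H' :=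
  h.le_of_le (hUU'.trans h'.1)

theorem add_le (h : IsPS U H) (h' : IsPS U' H')
    (hmul : ∀ u ∈ U, ∀ u' ∈ U', u * u' ∈ W) (hW : W ≤ riemannRochSpace H'') :
    H + H' ≤ H'' := by
  intro v
  obtain ⟨u, hu, hu0, hord⟩ := h.2 v
  obtain ⟨u', hu', hu0', hord'⟩ := h'.2 v
  have := (mem_rr_of_ne_zero (mul_ne_zero hu0 hu0')).mp (hW (hmul u hu u' hu')) v
  rw [v.ord_mul hu0 hu0'] at this
  rw [Finsupp.add_apply]
  omega

theorem smul (h : IsPS U H) {z : F} (hz : z ≠ 0) {Dz : Divisor K F}
    (hDz : ∀ v : Place K F, Dz v = v.ord z) (hUU' : ∀ u : F, u ∈ U ↔ z * u ∈ U') :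
    IsPS U' (H - Dz) := by
  refine ⟨fun u' hu' => ?_, fun v => ?_⟩
  · have h1 : z * (z⁻¹ * u') = u' := by field_simp
    have h2 : z⁻¹ * u' ∈ U := (hUU' _).mpr (by rwa [h1])
    have h3 := (mul_mem_rr_sub_iff hz hDz H (z⁻¹ * u')).mpr (h.1 h2)
    rwa [h1] at h3
  · obtain ⟨u, hu, hu0, hord⟩ := h.2 v
    refine ⟨z * u, (hUU' u).mp hu, mul_ne_zero hz hu0, ?_⟩
    rw [v.ord_mul hz hu0, Finsupp.sub_apply, hDz v, hord]
    ring

end IsPS

/-- A nonzero subspace contained in some `L(H₀)` has a pole support. -/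
theorem exists_isPS [HasPrincipalDivisors K F] {U : Submodule K F} (hU : U ≠ ⊥)
    {H₀ : Divisor K F} (hUH₀ : U ≤ riemannRochSpace H₀) : ∃ H : Divisor K F, IsPS U H := by
  classical
  obtain ⟨u₀, hu₀, hu₀0⟩ := Submodule.exists_mem_ne_zero_of_ne_bot hU
  obtain ⟨D₀, hD₀, -⟩ := HasPrincipalDivisors.exists_divisor (K := K) u₀ hu₀0
  have key : ∀ v : Place K F, ∃ n : ℤ, (∃ u ∈ U, u ≠ 0 ∧ v.ord u = -n) ∧
      ∀ m : ℤ, (∃ u ∈ U, u ≠ 0 ∧ v.ord u = -m) → m ≤ n := by
    intro v
    refine Int.exists_greatest_of_bdd ⟨H₀ v, ?_⟩ ⟨-v.ord u₀, u₀, hu₀, hu₀0, by ring⟩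
    rintro m ⟨u, hu, hu0, hord⟩
    have := (mem_rr_of_ne_zero hu0).mp (hUH₀ hu) v
    omega
  choose h hatt hmax using key
  have hsupp : ∀ v : Place K F, h v ≠ 0 → v ∈ H₀.support ∪ D₀.support := by
    intro v hv
    by_contra hnot
    rw [Finset.mem_union, not_or, Finsupp.notMem_support_iff, Finsupp.notMem_support_iff] at hnot
    obtain ⟨u, hu, hu0, hord⟩ := hatt v
    have h1 := (mem_rr_of_ne_zero hu0).mp (hUH₀ hu) v
    have h2 := hmax v (-v.ord u₀) ⟨u₀, hu₀, hu₀0, by ring⟩
    have h3 := hD₀ v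
    rw [hnot.1] at h1
    rw [hnot.2] at h3
    apply hv
    omega
  refine ⟨Finsupp.onFinset (H₀.support ∪ D₀.support) h hsupp, fun u hu => ?_, fun v => ?_⟩
  · rw [mem_riemannRochSpace_iff]
    intro v
    rcases eq_or_ne u 0 with h0 | h0
    · exact Or.inl h0
    · refine Or.inr ?_
      have := hmax v (-v.ord u) ⟨u, hu, h0, by ring⟩
      rw [Finsupp.onFinset_apply]
      omega
  · obtain ⟨u, hu, hu0, hord⟩ := hatt v
    exact ⟨u, hu, hu0, by rw [Finsupp.onFinset_apply]; exact hord⟩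

end Fermat.Agent.S37.Deuring65
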