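/-
S37 / [R]-ABS, second seat (helper65): abstract Deuring reduction of divisors, part 2.

`Data L F k Fb` bundles, in elementary form (Mathlib + Prelude `Place` API only):
two function fields `F/L`, `Fb/k` all of whose places have degree `1`, Riemann's EQUALITY
`ℓ(G) = deg G + 1 - g` in degrees `≥ c` on both sides WITH THE SAME `g`, a valuation subring `O` of
`F` with a ring hom `red : O → Fb` killing the nonunits, the LATTICE property
(`V G = red (L(G) ∩ O)` is a `k`-subspace of dimension `ℓ(G)`) and one ANCHOR pair `(E, Eb)` of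
divisors of the same positive degree with `V (n E) ≤ L̄(n Eb)`.

Main results (`Data.exists_reduction`): there is a map `r : Place L F → Place k Fb` with
* `V D = L̄(r_* D)` for all divisors `D` of degree `≥ c₁`;
* the CONSERVATION LAW `r_* (div y) = div (red y)` for every `y ∈ O` with `red y ≠ 0`
  (verbatim clause (2) of the Prelude `ModularCurve.IsPlaceReductionAlong`).

Proof = helper43's complement trick: `V_D * V_(nE-D) ⊆ V_(nE) ⊆ L̄(n Eb)` and a degree squeeze.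
-/
import Fermat.Agent.S37.Deuring65.Basic

set_option autoImplicit false
set_option linter.unusedSectionVars false
set_option linter.style.haveILetI false

open AlgebraicCurve Module

namespace Fermat.Agent.S37.Deuring65

/-- Abstract Deuring data (see the file header). -/
structure Data (L F k Fb : Type*) [Field L] [Field F] [Algebra L F] [Field k] [Field Fb]
    [Algebra k Fb] where
  O : ValuationSubring F
  red : O →+* Fb
  red_nonunit : ∀ y : O, ¬ IsUnit y → red y = 0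
  V : Divisor L F → Submodule k Fb
  mem_V : ∀ (G : Divisor L F) (z : Fb),
    z ∈ V G ↔ ∃ y : O, (y : F) ∈ riemannRochSpace G ∧ red y = z
  finrank_V : ∀ G : Divisor L F, finrank k (V G) = finrank L (riemannRochSpace G)
  degF : ∀ P : Place L F, P.deg = 1
  degFb : ∀ Q : Place k Fb, Q.deg = 1
  finFb : ∀ H : Divisor k Fb, Module.Finite k (riemannRochSpace H)
  g : ℤ
  c : ℤ
  riemannF : ∀ G : Divisor L F, c ≤ Divisor.degree G →
    (finrank L (riemannRochSpace G) : ℤ) = Divisor.degree G + 1 - g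
  riemannFb : ∀ H : Divisor k Fb, c ≤ Divisor.degree H →
    (finrank k (riemannRochSpace H) : ℤ) = Divisor.degree H + 1 - g
  E : Divisor L F
  Eb : Divisor k Fb
  deg_E : Divisor.degree E = Divisor.degree Eb
  deg_E_pos : 0 < Divisor.degree E
  anchor : ∀ n : ℕ, V (n • E) ≤ riemannRochSpace (n • Eb)

namespace Data

variable {L F k Fb : Type*} [Field L] [Field F] [Algebra L F] [Field k] [Field Fb]
  [Algebra k Fb] (𝒟 : Data L F k Fb)

/-- the degree threshold -/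
def c1 : ℤ := max (max (𝒟.c + 1) 𝒟.g) 0

theorem c1_nonneg : 0 ≤ 𝒟.c1 := le_max_right _ _

theorem c_lt_c1 : 𝒟.c + 1 ≤ 𝒟.c1 := (le_max_left _ _).trans (le_max_left _ _)

theorem g_le_c1 : 𝒟.g ≤ 𝒟.c1 := (le_max_right _ _).trans (le_max_left _ _)

/-! ### the spaces `V D` -/

theorem V_mono {D D' : Divisor L F} (h : D ≤ D') : 𝒟.V D ≤ 𝒟.V D' := by
  intro z hz
  rw [𝒟.mem_V] at hz ⊢
  obtain ⟨y, hy, rfl⟩ := hz
  exact ⟨y, rr_mono h hy, rfl⟩

theorem V_mul {D D' : Divisor L F} {z z' : Fb} (hz : z ∈ 𝒟.V D) (hz' : z' ∈ 𝒟.V D') :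
    z * z' ∈ 𝒟.V (D + D') := by
  rw [𝒟.mem_V] at hz hz' ⊢
  obtain ⟨y, hy, rfl⟩ := hz
  obtain ⟨y', hy', rfl⟩ := hz'
  refine ⟨y * y', ?_, map_mul _ _ _⟩
  show ((y : F) * (y' : F)) ∈ _
  exact mul_mem_rr hy hy'

theorem isUnit_of_red_ne_zero {y : 𝒟.O} (h : 𝒟.red y ≠ 0) : IsUnit y := by
  by_contra hn
  exact h (𝒟.red_nonunit y hn)

theorem red_ne_zero_of_isUnit {y : 𝒟.O} (h : IsUnit y) : 𝒟.red y ≠ 0 :=
  (h.map 𝒟.red).ne_zero

theorem coe_ne_zero_of_isUnit {y : 𝒟.O} (h : IsUnit y) : (y : F) ≠ 0 := by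
  intro h0
  have : y = 0 := Subtype.ext h0
  rw [this] at h
  exact not_isUnit_zero h

/-- multiplication by a unit `y` of `O` identifies `V B` with `V (B - div y)` -/
theorem V_smul_iff {y : 𝒟.O} (hy : IsUnit y) {Dy : Divisor L F}
    (hDy : ∀ P : Place L F, Dy P = P.ord (y : F)) (B : Divisor L F) (u : Fb) :
    u ∈ 𝒟.V B ↔ 𝒟.red y * u ∈ 𝒟.V (B - Dy) := by
  have hy0 := 𝒟.coe_ne_zero_of_isUnit hy
  constructor
  · intro hu
    rw [𝒟.mem_V] at hu ⊢
    obtain ⟨f, hf, rfl⟩ := hu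
    refine ⟨y * f, ?_, map_mul _ _ _⟩
    show ((y : F) * (f : F)) ∈ _
    exact (mul_mem_rr_sub_iff hy0 hDy B f).mpr hf
  · intro hu
    rw [𝒟.mem_V] at hu ⊢
    obtain ⟨f', hf', hred⟩ := hu
    obtain ⟨yu, rfl⟩ := hy
    have hmul : (yu : 𝒟.O) * (↑yu⁻¹ * f') = f' := by
      rw [← mul_assoc, Units.mul_inv, one_mul]
    refine ⟨↑yu⁻¹ * f', ?_, ?_⟩
    · rw [← mul_mem_rr_sub_iff hy0 hDy B]
      have : ((yu : 𝒟.O) : F) * ((↑yu⁻¹ * f' : 𝒟.O) : F) = (f' : F) := by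
        exact congrArg Subtype.val hmul
      rw [this]
      exact hf'
    · have h1 : 𝒟.red yu * 𝒟.red (↑yu⁻¹ * f') = 𝒟.red yu * u := by
        rw [← map_mul, hmul, hred]
      exact mul_left_cancel₀ (𝒟.red_ne_zero_of_isUnit yu.isUnit) h1

theorem finrank_V_eq (D : Divisor L F) (hD : 𝒟.c1 ≤ Divisor.degree D) :
    (finrank k (𝒟.V D) : ℤ) = Divisor.degree D + 1 - 𝒟.g := by
  rw [𝒟.finrank_V, 𝒟.riemannF D (by have := 𝒟.c_lt_c1; linarith)]

theorem V_ne_bot (D : Divisor L F) (hD : 𝒟.c1 ≤ Divisor.degree D) : 𝒟.V D ≠ ⊥ := by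
  intro h
  have h1 := 𝒟.finrank_V_eq D hD
  rw [h, finrank_bot] at h1
  have := 𝒟.g_le_c1
  simp only [Nat.cast_zero] at h1
  linarith

theorem degree_nsmul_E (n : ℕ) : Divisor.degree (n • 𝒟.E) = n * Divisor.degree 𝒟.E := by
  rw [map_nsmul, nsmul_eq_mul]

theorem degree_nsmul_Eb (n : ℕ) : Divisor.degree (n • 𝒟.Eb) = n * Divisor.degree 𝒟.E := by
  rw [map_nsmul, nsmul_eq_mul, 𝒟.deg_E]

theorem natCast_le_degree_nsmul_E (n : ℕ) : (n : ℤ) ≤ Divisor.degree (n • 𝒟.E) := by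
  rw [𝒟.degree_nsmul_E]
  have h1 := 𝒟.deg_E_pos
  have h2 : (0 : ℤ) ≤ n := Int.natCast_nonneg n
  nlinarith

include 𝒟 in
theorem exists_placeFb : Nonempty (Place k Fb) := by
  have h1 := 𝒟.deg_E_pos
  rw [𝒟.deg_E] at h1
  have hne : 𝒟.Eb ≠ 0 := by
    intro h0
    rw [h0, map_zero] at h1
    exact lt_irrefl _ h1
  obtain ⟨Q, -⟩ := Finsupp.ne_iff.mp hne
  exact ⟨Q⟩

/-- a subspace of `L̄(G)` of dimension `d + 1 - g` with `d > c` forces `deg G ≥ d` -/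
theorem le_degree_of_le_rr {U : Submodule k Fb} {G : Divisor k Fb}
    (hU : U ≤ riemannRochSpace G) {d : ℤ} (hd : 𝒟.c + 1 ≤ d)
    (hfin : (finrank k U : ℤ) = d + 1 - 𝒟.g) : d ≤ Divisor.degree G := by
  classical
  haveI := 𝒟.finFb G
  have hle : finrank k U ≤ finrank k (riemannRochSpace G) :=
    LinearMap.finrank_le_finrank_of_injective (Submodule.inclusion_injective hU)
  have hle' : (finrank k U : ℤ) ≤ (finrank k (riemannRochSpace G) : ℤ) := by exact_mod_cast hle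
  by_cases hc : 𝒟.c ≤ Divisor.degree G
  · rw [𝒟.riemannFb G hc, hfin] at hle'
    linarith
  · exfalso
    rw [not_le] at hc
    obtain ⟨Q₀⟩ := 𝒟.exists_placeFb
    set G₂ : Divisor k Fb := G + Finsupp.single Q₀ (𝒟.c - Divisor.degree G) with hG₂
    have hGG₂ : G ≤ G₂ := by
      intro v
      rw [hG₂, Finsupp.add_apply]
      have : 0 ≤ (Finsupp.single Q₀ (𝒟.c - Divisor.degree G) : Divisor k Fb) v := by
        rw [Finsupp.single_apply]
        split_ifs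
        · linarith
        · exact le_refl _
      linarith
    have hdG₂ : Divisor.degree G₂ = 𝒟.c := by
      rw [hG₂, map_add, Divisor.degree_single, 𝒟.degFb Q₀]
      push_cast
      ring
    haveI := 𝒟.finFb G₂
    have hle2 : finrank k (riemannRochSpace G) ≤ finrank k (riemannRochSpace G₂) :=
      LinearMap.finrank_le_finrank_of_injective (Submodule.inclusion_injective (rr_mono hGG₂))
    have hle2' : (finrank k (riemannRochSpace G) : ℤ) ≤ (finrank k (riemannRochSpace G₂) : ℤ) := by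
      exact_mod_cast hle2
    rw [𝒟.riemannFb G₂ (by rw [hdG₂]), hdG₂] at hle2'
    rw [hfin] at hle'
    linarith

/-! ### Theorem A: `V D = L̄(Θ D)` with `deg Θ D = deg D` -/

variable [HasPrincipalDivisors k Fb]

theorem exists_theta (D : Divisor L F) (hD : 𝒟.c1 ≤ Divisor.degree D) :
    ∃ H : Divisor k Fb, IsPS (𝒟.V D) H ∧ Divisor.degree H = Divisor.degree D ∧
      𝒟.V D = riemannRochSpace H := by
  classical
  set n : ℕ := (𝒟.c1 + Divisor.degree D).toNat with hn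
  set D' : Divisor L F := n • 𝒟.E - D with hD'
  have hn' : 𝒟.c1 + Divisor.degree D ≤ n := Int.self_le_toNat _
  have hnE := 𝒟.natCast_le_degree_nsmul_E n
  have hdD' : 𝒟.c1 ≤ Divisor.degree D' := by
    rw [hD', map_sub]
    linarith
  have hsum : D + D' = n • 𝒟.E := by
    rw [hD']
    abel
  obtain ⟨u0, hu0, hu00⟩ := Submodule.exists_mem_ne_zero_of_ne_bot (𝒟.V_ne_bot D hD)
  obtain ⟨u1, hu1, hu10⟩ := Submodule.exists_mem_ne_zero_of_ne_bot (𝒟.V_ne_bot D' hdD')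
  obtain ⟨Du0, hDu0, -⟩ := HasPrincipalDivisors.exists_divisor (K := k) u0 hu00
  obtain ⟨Du1, hDu1, -⟩ := HasPrincipalDivisors.exists_divisor (K := k) u1 hu10
  have hmulmem : ∀ u ∈ 𝒟.V D, ∀ u' ∈ 𝒟.V D', u * u' ∈ 𝒟.V (n • 𝒟.E) := by
    intro u hu u' hu'
    rw [← hsum]
    exact 𝒟.V_mul hu hu'
  have hb0 : 𝒟.V D ≤ riemannRochSpace (n • 𝒟.Eb + Du1) := by
    intro u hu
    have h1 := 𝒟.anchor n (hmulmem u hu u1 hu1)
    rw [mul_comm] at h1
    have h2 : (n • 𝒟.Eb : Divisor k Fb) = (n • 𝒟.Eb + Du1) - Du1 := by abel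
    rw [h2] at h1
    exact (mul_mem_rr_sub_iff hu10 hDu1 _ u).mp h1
  have hb1 : 𝒟.V D' ≤ riemannRochSpace (n • 𝒟.Eb + Du0) := by
    intro u hu
    have h1 := 𝒟.anchor n (hmulmem u0 hu0 u hu)
    have h2 : (n • 𝒟.Eb : Divisor k Fb) = (n • 𝒟.Eb + Du0) - Du0 := by abel
    rw [h2] at h1
    exact (mul_mem_rr_sub_iff hu00 hDu0 _ u).mp h1
  obtain ⟨G, hG⟩ := exists_isPS (𝒟.V_ne_bot D hD) hb0
  obtain ⟨G', hG'⟩ := exists_isPS (𝒟.V_ne_bot D' hdD') hb1
  have hle : G + G' ≤ n • 𝒟.Eb := hG.add_le hG' hmulmem (𝒟.anchor n)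
  have hc1 := 𝒟.c_lt_c1
  have hdG : Divisor.degree D ≤ Divisor.degree G :=
    𝒟.le_degree_of_le_rr hG.1 (by linarith) (𝒟.finrank_V_eq D hD)
  have hdG' : Divisor.degree D' ≤ Divisor.degree G' :=
    𝒟.le_degree_of_le_rr hG'.1 (by linarith) (𝒟.finrank_V_eq D' hdD')
  have hdle := degree_mono 𝒟.degFb hle
  rw [map_add, 𝒟.degree_nsmul_Eb] at hdle
  have hdsum : Divisor.degree D + Divisor.degree D' = n * Divisor.degree 𝒟.E := by
    rw [← map_add, hsum, 𝒟.degree_nsmul_E]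
  have hdeq : Divisor.degree G = Divisor.degree D := by linarith
  refine ⟨G, hG, hdeq, ?_⟩
  haveI := 𝒟.finFb G
  refine Submodule.eq_of_le_of_finrank_eq hG.1 ?_
  have h1 := 𝒟.finrank_V_eq D hD
  have h2 := 𝒟.riemannFb G (by rw [hdeq]; linarith)
  have : (finrank k (𝒟.V D) : ℤ) = (finrank k (riemannRochSpace G) : ℤ) := by
    rw [h1, h2, hdeq]
  exact_mod_cast this

/-- the divisor `Θ D` with `V D = L̄(Θ D)` (for `deg D ≥ c₁`; junk value `0` otherwise) -/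
noncomputable def Theta (D : Divisor L F) : Divisor k Fb := by
  classical
  exact if h : 𝒟.c1 ≤ Divisor.degree D then Classical.choose (𝒟.exists_theta D h) else 0

theorem Theta_spec (D : Divisor L F) (h : 𝒟.c1 ≤ Divisor.degree D) :
    IsPS (𝒟.V D) (𝒟.Theta D) ∧ Divisor.degree (𝒟.Theta D) = Divisor.degree D ∧
      𝒟.V D = riemannRochSpace (𝒟.Theta D) := by
  unfold Theta
  rw [dif_pos h]
  exact Classical.choose_spec (𝒟.exists_theta D h)

theorem Theta_add (D D' : Divisor L F) (h : 𝒟.c1 ≤ Divisor.degree D)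
    (h' : 𝒟.c1 ≤ Divisor.degree D') : 𝒟.Theta (D + D') = 𝒟.Theta D + 𝒟.Theta D' := by
  have h'' : 𝒟.c1 ≤ Divisor.degree (D + D') := by
    rw [map_add]
    have := 𝒟.c1_nonneg
    linarith
  obtain ⟨p1, d1, -⟩ := 𝒟.Theta_spec D h
  obtain ⟨p2, d2, -⟩ := 𝒟.Theta_spec D' h'
  obtain ⟨p3, d3, -⟩ := 𝒟.Theta_spec (D + D') h''
  have hle : 𝒟.Theta D + 𝒟.Theta D' ≤ 𝒟.Theta (D + D') :=
    p1.add_le p2 (fun u hu u' hu' => 𝒟.V_mul hu hu') p3.1
  exact (eq_of_le_of_degree_eq 𝒟.degFb hle (by rw [map_add, d1, d2, d3, map_add])).symm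

theorem Theta_mono {D D' : Divisor L F} (h : 𝒟.c1 ≤ Divisor.degree D)
    (h' : 𝒟.c1 ≤ Divisor.degree D') (hle : D ≤ D') : 𝒟.Theta D ≤ 𝒟.Theta D' :=
  (𝒟.Theta_spec D h).1.mono (𝒟.Theta_spec D' h').1 (𝒟.V_mono hle)

/-! ### the additive map `θ` -/

/-- a multiple of `E` large enough to shift `D` into the good range -/
noncomputable def mOf (D : Divisor L F) : ℕ := (𝒟.c1 + |Divisor.degree D|).toNat

theorem mOf_spec (D : Divisor L F) :
    𝒟.c1 ≤ Divisor.degree (𝒟.mOf D • 𝒟.E) ∧ 𝒟.c1 ≤ Divisor.degree (𝒟.mOf D • 𝒟.E + D) := by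
  have h1 : 𝒟.c1 + |Divisor.degree D| ≤ 𝒟.mOf D := Int.self_le_toNat _
  have h2 := 𝒟.natCast_le_degree_nsmul_E (𝒟.mOf D)
  have h3 := abs_nonneg (Divisor.degree D)
  have h4 := neg_abs_le (Divisor.degree D)
  refine ⟨by linarith, ?_⟩
  rw [map_add]
  linarith

/-- `θ D = Θ(mE + D) - Θ(mE)` for `m` large -/
noncomputable def thetaFun (D : Divisor L F) : Divisor k Fb :=
  𝒟.Theta (𝒟.mOf D • 𝒟.E + D) - 𝒟.Theta (𝒟.mOf D • 𝒟.E)

/-- `θ D = Θ(B + D) - Θ(B)` for every `B` in the good range -/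
theorem thetaFun_eq (D B : Divisor L F) (h1 : 𝒟.c1 ≤ Divisor.degree B)
    (h2 : 𝒟.c1 ≤ Divisor.degree (B + D)) :
    𝒟.thetaFun D = 𝒟.Theta (B + D) - 𝒟.Theta B := by
  obtain ⟨m1, m2⟩ := 𝒟.mOf_spec D
  have a1 := 𝒟.Theta_add (𝒟.mOf D • 𝒟.E + D) B m2 h1
  have a2 := 𝒟.Theta_add (B + D) (𝒟.mOf D • 𝒟.E) h2 m1
  have : 𝒟.mOf D • 𝒟.E + D + B = B + D + 𝒟.mOf D • 𝒟.E := by abel
  rw [this] at a1
  rw [a1] at a2
  unfold thetaFun
  rw [sub_eq_sub_iff_add_eq_add]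
  exact a2

theorem thetaFun_add (D D' : Divisor L F) :
    𝒟.thetaFun (D + D') = 𝒟.thetaFun D + 𝒟.thetaFun D' := by
  obtain ⟨m1, m2⟩ := 𝒟.mOf_spec D
  obtain ⟨m1', m2'⟩ := 𝒟.mOf_spec D'
  have hB : 𝒟.c1 ≤ Divisor.degree (𝒟.mOf D • 𝒟.E + 𝒟.mOf D' • 𝒟.E) := by
    rw [map_add]
    have := 𝒟.c1_nonneg
    linarith
  have hBD : 𝒟.c1 ≤ Divisor.degree (𝒟.mOf D • 𝒟.E + 𝒟.mOf D' • 𝒟.E + (D + D')) := by
    have : 𝒟.mOf D • 𝒟.E + 𝒟.mOf D' • 𝒟.E + (D + D') =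
        (𝒟.mOf D • 𝒟.E + D) + (𝒟.mOf D' • 𝒟.E + D') := by abel
    rw [this, map_add]
    have := 𝒟.c1_nonneg
    linarith
  rw [𝒟.thetaFun_eq (D + D') _ hB hBD]
  have e1 : 𝒟.mOf D • 𝒟.E + 𝒟.mOf D' • 𝒟.E + (D + D') =
      (𝒟.mOf D • 𝒟.E + D) + (𝒟.mOf D' • 𝒟.E + D') := by abel
  rw [e1, 𝒟.Theta_add _ _ m2 m2', 𝒟.Theta_add _ _ m1 m1']
  unfold thetaFun
  abel

/-- `θ` as an additive map -/
noncomputable def thetaHom : Divisor L F →+ Divisor k Fb :=
  AddMonoidHom.mk' 𝒟.thetaFun 𝒟.thetaFun_add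

theorem thetaHom_apply (D : Divisor L F) : 𝒟.thetaHom D = 𝒟.thetaFun D := rfl

/-- In the good range `Θ = θ`. -/
theorem Theta_eq_thetaHom (D : Divisor L F) (h : 𝒟.c1 ≤ Divisor.degree D) :
    𝒟.Theta D = 𝒟.thetaHom D := by
  have h2 : 𝒟.c1 ≤ Divisor.degree (D + D) := by
    rw [map_add]
    have := 𝒟.c1_nonneg
    linarith
  rw [thetaHom_apply, 𝒟.thetaFun_eq D D h h2, 𝒟.Theta_add D D h h]
  abel

theorem exists_single (P : Place L F) :
    ∃ Q : Place k Fb, 𝒟.thetaHom (Finsupp.single P 1) = Finsupp.single Q 1 := by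
  obtain ⟨m1, m2⟩ := 𝒟.mOf_spec (Finsupp.single P 1)
  refine exists_single_of_degree_one 𝒟.degFb ?_ ?_
  · rw [thetaHom_apply, thetaFun, sub_nonneg]
    refine 𝒟.Theta_mono m1 m2 ?_
    intro v
    rw [Finsupp.add_apply]
    have : 0 ≤ (Finsupp.single P 1 : Divisor L F) v := by
      classical
      rw [Finsupp.single_apply]
      split_ifs <;> simp
    linarith
  · rw [thetaHom_apply, thetaFun, map_sub, (𝒟.Theta_spec _ m2).2.1, (𝒟.Theta_spec _ m1).2.1,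
      map_add, Divisor.degree_single, 𝒟.degF P]
    simp

/-- the reduction of places -/
noncomputable def r (P : Place L F) : Place k Fb := Classical.choose (𝒟.exists_single P)

theorem thetaHom_single (P : Place L F) :
    𝒟.thetaHom (Finsupp.single P 1) = Finsupp.single (𝒟.r P) 1 :=
  Classical.choose_spec (𝒟.exists_single P)

theorem thetaHom_eq_mapDomain (D : Divisor L F) : 𝒟.thetaHom D = Finsupp.mapDomain 𝒟.r D := by
  have : 𝒟.thetaHom = Finsupp.mapDomain.addMonoidHom 𝒟.r := by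
    refine Finsupp.addHom_ext fun P n => ?_
    rw [Finsupp.mapDomain.addMonoidHom_apply, Finsupp.mapDomain_single]
    have h1 : (Finsupp.single P n : Divisor L F) = n • Finsupp.single P (1 : ℤ) := by
      rw [Finsupp.smul_single, smul_eq_mul, mul_one]
    rw [h1, map_zsmul, 𝒟.thetaHom_single, Finsupp.smul_single, smul_eq_mul, mul_one]
  rw [this]
  rfl

/-- **[SURJ]**: `red (L(D) ∩ O) = L̄(r_* D)` for `deg D ≥ c₁`. -/
theorem V_eq_rr_mapDomain (D : Divisor L F) (h : 𝒟.c1 ≤ Divisor.degree D) :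
    𝒟.V D = riemannRochSpace (Finsupp.mapDomain 𝒟.r D) := by
  rw [← 𝒟.thetaHom_eq_mapDomain, ← 𝒟.Theta_eq_thetaHom D h]
  exact (𝒟.Theta_spec D h).2.2

/-- **Conservation law**: `r_* (div y) = div (red y)`. -/
theorem conservation (y : 𝒟.O) (hy : 𝒟.red y ≠ 0) (D : Divisor L F)
    (hD : ∀ P : Place L F, D P = P.ord (y : F)) (Q : Place k Fb) :
    Finsupp.mapDomain 𝒟.r D Q = Q.ord (𝒟.red y) := by
  have hu := 𝒟.isUnit_of_red_ne_zero hy
  obtain ⟨Dy, hDy, -⟩ := HasPrincipalDivisors.exists_divisor (K := k) (𝒟.red y) hy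
  obtain ⟨m1, m2⟩ := 𝒟.mOf_spec (-D)
  set B : Divisor L F := 𝒟.mOf (-D) • 𝒟.E with hB
  have m2' : 𝒟.c1 ≤ Divisor.degree (B - D) := by rwa [sub_eq_add_neg]
  have hps : IsPS (𝒟.V (B - D)) (𝒟.Theta B - Dy) :=
    (𝒟.Theta_spec B m1).1.smul hy hDy (fun u => 𝒟.V_smul_iff hu hD B u)
  have heq : 𝒟.Theta (B - D) = 𝒟.Theta B - Dy := (𝒟.Theta_spec (B - D) m2').1.unique hps
  have h1 : 𝒟.thetaHom (-D) = 𝒟.Theta (B + -D) - 𝒟.Theta B := 𝒟.thetaFun_eq (-D) B m1 m2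
  rw [← sub_eq_add_neg, heq, map_neg, 𝒟.thetaHom_eq_mapDomain] at h1
  have h2 : Finsupp.mapDomain 𝒟.r D = Dy := by
    have : -Finsupp.mapDomain 𝒟.r D = -Dy := by rw [h1]; abel
    exact neg_injective this
  rw [h2, hDy Q]

/-- **Main theorem** ([R]-ABS): existence of the reduction of places with `V D = L̄(r_* D)` in
large degree and the conservation law (clause (2) of `ModularCurve.IsPlaceReductionAlong`). -/
theorem exists_reduction :
    ∃ r : Place L F → Place k Fb,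
      (∀ P : Place L F, (r P).deg = P.deg) ∧
      (∀ D : Divisor L F, 𝒟.c1 ≤ Divisor.degree D →
        𝒟.V D = riemannRochSpace (Finsupp.mapDomain r D)) ∧
      ∀ y : 𝒟.O, 𝒟.red y ≠ 0 → ∀ D : Divisor L F, (∀ P : Place L F, D P = P.ord (y : F)) →
        ∀ Q : Place k Fb, Finsupp.mapDomain r D Q = Q.ord (𝒟.red y) :=
  ⟨𝒟.r, fun P => by rw [𝒟.degFb, 𝒟.degF], 𝒟.V_eq_rr_mapDomain, 𝒟.conservation⟩

end Data

end Fermat.Agent.S37.Deuring65
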