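/-
S37 / [R]-ABS, second seat (helper65), part 3: semicontinuity of the genus and the
"separating element" form of the abstract Deuring reduction.

* `genus_le_of_lattice` : SEMICONTINUITY `ḡ ≤ g`.  If `V G = red (L(G) ∩ O)` has dimension `ℓ(G)`
  (lattice lemma) and `V (n E) ≤ L̄(n Ē)` with `deg E = deg Ē > 0`, then the Riemann genus of the
  special fibre is at most the Riemann genus of the generic fibre.  (S18 proves the OTHER inequality
  `g ≤ ḡ`; both together give the genus EQUALITY that `Data` needs.)
* `exists_reduction_of_separating` : the hypotheses of `Data.exists_reduction` discharged from the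
  instance-free API `DW63/Transfer.lean`: `L`, `k` algebraically closed, `x ∈ F`, `x̄ ∈ F̄`
  separating transcendental elements with `[F : L(x)] = [F̄ : k(x̄)]`, `gR L F ≤ gR k F̄`,
  the lattice data `(O, red, V)` and the anchor for the pole divisors of `x`, `x̄`.
-/
import Fermat.Agent.S37.Deuring65.Main
import Fermat.Agent.S18.DW63.Transfer

set_option autoImplicit false
set_option linter.unusedSectionVars false
set_option linter.style.haveILetI false

open AlgebraicCurve Module IntermediateField

namespace Fermat.Agent.S37.Deuring65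

open Fermat.Agent.S18.DW63
open Fermat.Agent.S18.Riemann12 (gR)

variable {L F k Fb : Type*} [Field L] [Field F] [Algebra L F] [Field k] [Field Fb]
  [Algebra k Fb]

/-- **Semicontinuity of the genus**: `ḡ ≤ g`. -/
theorem genus_le_of_lattice
    (V : Divisor L F → Submodule k Fb)
    (finrank_V : ∀ G : Divisor L F, finrank k (V G) = finrank L (riemannRochSpace G))
    (finFb : ∀ H : Divisor k Fb, Module.Finite k (riemannRochSpace H))
    {g gb c cb : ℤ}
    (riemannF : ∀ G : Divisor L F, c ≤ Divisor.degree G →
      (finrank L (riemannRochSpace G) : ℤ) = Divisor.degree G + 1 - g)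
    (riemannFb : ∀ H : Divisor k Fb, cb ≤ Divisor.degree H →
      (finrank k (riemannRochSpace H) : ℤ) = Divisor.degree H + 1 - gb)
    (E : Divisor L F) (Eb : Divisor k Fb) (deg_E : Divisor.degree E = Divisor.degree Eb)
    (deg_E_pos : 0 < Divisor.degree E)
    (anchor : ∀ n : ℕ, V (n • E) ≤ riemannRochSpace (n • Eb)) : gb ≤ g := by
  set n : ℕ := (max c cb).toNat with hn
  have hn' : max c cb ≤ n := Int.self_le_toNat _
  have hn0 : (0 : ℤ) ≤ n := Int.natCast_nonneg n
  have hdeg : (n : ℤ) ≤ Divisor.degree (n • E) := by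
    rw [map_nsmul, nsmul_eq_mul]
    nlinarith
  have hdegb : Divisor.degree (n • Eb) = Divisor.degree (n • E) := by
    rw [map_nsmul, map_nsmul, deg_E]
  have h1 := riemannF (n • E) (by have := le_max_left c cb; linarith)
  have h2 := riemannFb (n • Eb) (by rw [hdegb]; have := le_max_right c cb; linarith)
  haveI := finFb (n • Eb)
  have hle : finrank k (V (n • E)) ≤ finrank k (riemannRochSpace (n • Eb)) :=
    LinearMap.finrank_le_finrank_of_injective (Submodule.inclusion_injective (anchor n))
  rw [finrank_V] at hle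
  have hle' : (finrank L (riemannRochSpace (n • E)) : ℤ) ≤
      (finrank k (riemannRochSpace (n • Eb)) : ℤ) := by exact_mod_cast hle
  rw [h1, h2, hdegb] at hle'
  linarith

/-- **[R]-ABS in "separating element" form.** -/
theorem exists_reduction_of_separating [IsAlgClosed L] [IsAlgClosed k]
    {x : F} (hx : Transcendental L x) [FiniteDimensional L⟮x⟯ F] [Algebra.IsSeparable L⟮x⟯ F]
    {xb : Fb} (hxb : Transcendental k xb) [FiniteDimensional k⟮xb⟯ Fb]
    [Algebra.IsSeparable k⟮xb⟯ Fb]
    (hdeg : finrank L⟮x⟯ F = finrank k⟮xb⟯ Fb)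
    (hgenus : gR L F ≤ gR k Fb)
    (O : ValuationSubring F) (red : O →+* Fb)
    (red_nonunit : ∀ y : O, ¬ IsUnit y → red y = 0)
    (V : Divisor L F → Submodule k Fb)
    (mem_V : ∀ (G : Divisor L F) (z : Fb),
      z ∈ V G ↔ ∃ y : O, (y : F) ∈ riemannRochSpace G ∧ red y = z)
    (finrank_V : ∀ G : Divisor L F, finrank k (V G) = finrank L (riemannRochSpace G))
    (anchor : ∀ (E : Divisor L F) (Eb : Divisor k Fb),
      (∀ v : Place L F, E v = max 0 (-(v.ord x))) →
      (∀ v : Place k Fb, Eb v = max 0 (-(v.ord xb))) →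
      ∀ n : ℕ, V (n • E) ≤ riemannRochSpace (n • Eb)) :
    HasPrincipalDivisors k Fb ∧ gR L F = gR k Fb ∧
    ∃ r : Place L F → Place k Fb,
      (∀ P : Place L F, (r P).deg = P.deg) ∧
      (∃ c₁ : ℤ, ∀ D : Divisor L F, c₁ ≤ Divisor.degree D →
        V D = riemannRochSpace (Finsupp.mapDomain r D)) ∧
      ∀ y : O, red y ≠ 0 → ∀ D : Divisor L F, (∀ P : Place L F, D P = P.ord (y : F)) →
        ∀ Q : Place k Fb, Finsupp.mapDomain r D Q = Q.ord (red y) := by
  haveI hPD : HasPrincipalDivisors k Fb := hasPrincipalDivisors_of_separating hxb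
  obtain ⟨E, hE, hdE⟩ := exists_poleDivisor_of_separating hx
  obtain ⟨Eb, hEb, hdEb⟩ := exists_poleDivisor_of_separating hxb
  obtain ⟨c, hc⟩ := exists_riemann_eq_of_separating hx
  obtain ⟨cb, hcb⟩ := exists_riemann_eq_of_separating hxb
  have hfinFb := finite_riemannRochSpace_of_separating hxb
  have hdeg_E : Divisor.degree E = Divisor.degree Eb := by
    rw [hdE, hdEb, hdeg]
  have hpos : 0 < Divisor.degree E := by
    rw [hdE]
    exact_mod_cast (finrank_pos : 0 < finrank L⟮x⟯ F)
  have hanchor := anchor E Eb hE hEb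
  have hle : gR k Fb ≤ gR L F :=
    genus_le_of_lattice V finrank_V hfinFb hc hcb E Eb hdeg_E hpos hanchor
  have hgeq : gR L F = gR k Fb := le_antisymm hgenus hle
  let 𝒟 : Data L F k Fb :=
    { O := O
      red := red
      red_nonunit := red_nonunit
      V := V
      mem_V := mem_V
      finrank_V := finrank_V
      degF := deg_eq_one_of_separating hx
      degFb := deg_eq_one_of_separating hxb
      finFb := hfinFb
      g := gR L F
      c := max c cb
      riemannF := fun G hG => hc G ((le_max_left c cb).trans hG)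
      riemannFb := fun H hH => by
        rw [hgeq]
        exact hcb H ((le_max_right c cb).trans hH)
      E := E
      Eb := Eb
      deg_E := hdeg_E
      deg_E_pos := hpos
      anchor := hanchor }
  obtain ⟨r, h1, h2, h3⟩ := 𝒟.exists_reduction
  exact ⟨hPD, hgeq, r, h1, ⟨𝒟.c1, h2⟩, h3⟩

end Fermat.Agent.S37.Deuring65
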