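/-
S37 / [R]-ABS, second seat (helper65), part 4: the lattice data `(O, red, V)` of `Deuring65.Data`
from the S18 interface `KGauss73.GaussData` (= the input shape of helper43's `Deuring43`).

* `gaussRed G : w.valuationSubring →+* Fb`, `gaussRed_nonunit`;
* `gaussV G D : Submodule k Fb` = `red (L(D) ∩ O_w)`, `mem_gaussV`, `finrank_gaussV` (LATTICE lemma);
* `exists_reduction_of_gaussData` : `GaussData` + separating elements `x`, `x̄` of equal degree +
  `gR L F ≤ gR k F̄` + the anchor for the pole divisors of `x`, `x̄`  ⟹  the reduction map `r` of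
  places with `red (L(D) ∩ O_w) = L̄(r_* D)` in large degree and the CONSERVATION LAW
  `r_* (div y) = div (redF y)` for all `y` with `w y = 1`.
-/
import Fermat.Agent.S37.Deuring65.Inst
import Fermat.Agent.S18.KGauss73

set_option autoImplicit false
set_option linter.unusedSectionVars false
set_option linter.style.haveILetI false

open AlgebraicCurve Module IntermediateField

namespace Fermat.Agent.S37.Deuring65

open Fermat.Agent.S18.KGauss73
open Fermat.Agent.S18.Riemann12 (gR)

variable {L F k Fb Γ₀ : Type*} [Field L] [Field F] [Algebra L F] [Field k] [Field Fb]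
  [Algebra k Fb] [LinearOrderedCommGroupWithZero Γ₀]
  {w : Valuation F Γ₀} (G : GaussData (L := L) w k Fb)

theorem le_one_of_mem (y : w.valuationSubring) : w (y : F) ≤ 1 :=
  (Valuation.mem_valuationSubring_iff w _).mp y.2

/-- the reduction map of `GaussData` as a ring hom on the valuation subring -/
noncomputable def gaussRed : w.valuationSubring →+* Fb where
  toFun y := G.redF (y : F)
  map_one' := G.redF_one
  map_mul' x y := G.redF_mul (le_one_of_mem x) (le_one_of_mem y)
  map_zero' := G.redF_zero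
  map_add' x y := G.redF_add (le_one_of_mem x) (le_one_of_mem y)

theorem gaussRed_apply (y : w.valuationSubring) : gaussRed G y = G.redF (y : F) := rfl

theorem gaussRed_nonunit (y : w.valuationSubring) (hy : ¬ IsUnit y) : gaussRed G y = 0 := by
  have h1 : w (y : F) ≤ 1 := le_one_of_mem y
  have h2 : w (y : F) < 1 := by
    rcases lt_or_eq_of_le h1 with h | h
    · exact h
    · exfalso
      apply hy
      have hy0 : (y : F) ≠ 0 := by
        intro h0
        rw [h0, map_zero] at h
        exact zero_ne_one h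
      have hinv : (y : F)⁻¹ ∈ w.valuationSubring := by
        rw [Valuation.mem_valuationSubring_iff, map_inv₀, h, inv_one]
      exact IsUnit.of_mul_eq_one (⟨_, hinv⟩ : w.valuationSubring)
        (Subtype.ext (mul_inv_cancel₀ hy0))
  rw [gaussRed_apply]
  exact (G.redF_eq_zero_iff h1).mpr h2

/-- `red (L(D) ∩ O_w)` as a `k`-subspace -/
def gaussV (D : Divisor L F) : Submodule k Fb where
  carrier := {z | ∃ y : F, y ∈ riemannRochSpace D ∧ w y ≤ 1 ∧ G.redF y = z}
  zero_mem' := ⟨0, zero_mem _, by simp, G.redF_zero⟩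
  add_mem' := by
    rintro _ _ ⟨y, hy, hy1, rfl⟩ ⟨y', hy', hy1', rfl⟩
    exact ⟨y + y', add_mem hy hy', (w.map_add _ _).trans (max_le hy1 hy1'),
      G.redF_add hy1 hy1'⟩
  smul_mem' := by
    rintro a _ ⟨y, hy, hy1, rfl⟩
    obtain ⟨c, hc1, rfl⟩ := G.exists_resL_eq a
    exact ⟨c • y, Submodule.smul_mem _ c hy, GaussData.smul_le_one hc1 hy1,
      G.redF_smul hc1 hy1⟩

theorem mem_gaussV' {D : Divisor L F} {z : Fb} :
    z ∈ gaussV G D ↔ ∃ y : F, y ∈ riemannRochSpace D ∧ w y ≤ 1 ∧ G.redF y = z := Iff.rfl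

theorem mem_gaussV (D : Divisor L F) (z : Fb) :
    z ∈ gaussV G D ↔
      ∃ y : w.valuationSubring, (y : F) ∈ riemannRochSpace D ∧ gaussRed G y = z := by
  rw [mem_gaussV']
  constructor
  · rintro ⟨y, hy, hy1, rfl⟩
    exact ⟨⟨y, (Valuation.mem_valuationSubring_iff w _).mpr hy1⟩, hy, rfl⟩
  · rintro ⟨y, hy, rfl⟩
    exact ⟨y, hy, le_one_of_mem y, rfl⟩

/-- **Lattice lemma**: `dim_k red (L(D) ∩ O_w) = dim_L L(D)`. -/
theorem finrank_gaussV (D : Divisor L F) [Module.Finite L (riemannRochSpace D)] :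
    finrank k (gaussV G D) = finrank L (riemannRochSpace D) := by
  obtain ⟨n, g, hgV, hg1, hgen, hortho⟩ := G.lattice (riemannRochSpace D) inferInstance
  have hli : LinearIndependent L g := linearIndependent_of_ortho hortho
  have hfr : finrank L (riemannRochSpace D) = n := by
    rw [← span_eq_of_generates hgV hgen, finrank_span_eq_card hli, Fintype.card_fin]
  have hlib : LinearIndependent k (fun j => G.redF (g j)) :=
    linearIndependent_red_of_ortho G hg1 hortho
  have hspan : gaussV G D = Submodule.span k (Set.range fun j => G.redF (g j)) := by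
    apply le_antisymm
    · rintro _ ⟨y, hy, hy1, rfl⟩
      obtain ⟨c, rfl⟩ := hgen y hy
      have hc1 : ∀ j, w (algebraMap L F (c j)) ≤ 1 := fun j => (hortho c j).trans hy1
      rw [G.redF_sum hc1 hg1]
      exact Submodule.sum_mem _ fun j _ =>
        Submodule.smul_mem _ _ (Submodule.subset_span ⟨j, rfl⟩)
    · rw [Submodule.span_le]
      rintro _ ⟨j, rfl⟩
      exact ⟨g j, hgV j, hg1 j, rfl⟩
  rw [hspan, finrank_span_eq_card hlib, Fintype.card_fin, hfr]

/-- **[R]-ABS from `GaussData`** (input shape of `Deuring43`). -/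
theorem exists_reduction_of_gaussData [IsAlgClosed L] [IsAlgClosed k]
    {x : F} (hx : Transcendental L x) [FiniteDimensional L⟮x⟯ F] [Algebra.IsSeparable L⟮x⟯ F]
    {xb : Fb} (hxb : Transcendental k xb) [FiniteDimensional k⟮xb⟯ Fb]
    [Algebra.IsSeparable k⟮xb⟯ Fb]
    (hdeg : finrank L⟮x⟯ F = finrank k⟮xb⟯ Fb)
    (hgenus : gR L F ≤ gR k Fb)
    (anchor : ∀ (E : Divisor L F) (Eb : Divisor k Fb),
      (∀ v : Place L F, E v = max 0 (-(v.ord x))) →
      (∀ v : Place k Fb, Eb v = max 0 (-(v.ord xb))) →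
      ∀ (n : ℕ) (y : F), y ∈ riemannRochSpace (n • E) → w y ≤ 1 →
        G.redF y ∈ riemannRochSpace (n • Eb)) :
    HasPrincipalDivisors k Fb ∧ gR L F = gR k Fb ∧
    ∃ r : Place L F → Place k Fb,
      (∀ P : Place L F, (r P).deg = P.deg) ∧
      (∃ c₁ : ℤ, ∀ D : Divisor L F, c₁ ≤ Divisor.degree D →
        gaussV G D = riemannRochSpace (Finsupp.mapDomain r D)) ∧
      ∀ y : F, w y = 1 → ∀ D : Divisor L F, (∀ P : Place L F, D P = P.ord y) →
        ∀ Q : Place k Fb, Finsupp.mapDomain r D Q = Q.ord (G.redF y) := by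
  have hfinF := Fermat.Agent.S18.DW63.finite_riemannRochSpace_of_separating hx
  obtain ⟨hPD, hg, r, h1, h2, h3⟩ := exists_reduction_of_separating hx hxb hdeg hgenus
    w.valuationSubring (gaussRed G) (gaussRed_nonunit G) (gaussV G) (mem_gaussV G)
    (fun D => by haveI := hfinF D; exact finrank_gaussV G D)
    (fun E Eb hE hEb n => by
      rintro _ ⟨y, hy, hy1, rfl⟩
      exact anchor E Eb hE hEb n y hy hy1)
  refine ⟨hPD, hg, r, h1, h2, fun y hy D hD Q => ?_⟩
  have hy1 : w y ≤ 1 := hy.le
  have hne : G.redF y ≠ 0 := by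
    intro h0
    have := (G.redF_eq_zero_iff hy1).mp h0
    rw [hy] at this
    exact lt_irrefl _ this
  exact h3 ⟨y, (Valuation.mem_valuationSubring_iff w _).mpr hy1⟩ hne D hD Q

end Fermat.Agent.S37.Deuring65
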